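import Mathlib

/-!
# The theorem of Bruck, Ryser and Chowla: the algebraic part

`A` is a family of linear forms `A i`, `i ∈ ι`, on `ℚ ^ ι` with
`∑ i, A i (x) ^ 2 = n ∑ x_i ^ 2 + l (∑ x_i) ^ 2`, and `n` is a sum of four squares, `n ≠ 0`.

* `exists_signs`: affine functions `ℓ i` on `k ^ ι` have a common point with `ℓ i (y) ^ 2 = y_i ^ 2`;
* `exists_of_one`: if `|ι| ≡ 1 mod 4`, then `z ^ 2 = n + l w ^ 2` has a rational solution;
* `exists_of_three`: if `|ι| ≡ 3 mod 4`, then `1 = n z ^ 2 - l w ^ 2` has a rational solution.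
-/

set_option autoImplicit false

namespace Fermat.Agent.Cor.BR

section Signs

variable {k : Type*} [Field k]

/-- Affine functions `ℓ i + b i` on `k ^ m` with values `± y i` at some point `y`. -/
theorem exists_signs_fin (h2 : (2 : k) ≠ 0) (m : ℕ) (ℓ : Fin m → ((Fin m → k) →ₗ[k] k))
    (b : Fin m → k) : ∃ y : Fin m → k, ∀ i, (ℓ i y + b i) ^ 2 = y i ^ 2 := by
  induction m with
  | zero => exact ⟨0, fun i => i.elim0⟩
  | succ m ih =>
    set c : k := ℓ 0 (Pi.single 0 1) with hc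
    obtain ⟨ε, hε, hεc⟩ : ∃ ε : k, ε ^ 2 = 1 ∧ ε - c ≠ 0 := by
      by_cases h1 : 1 - c = 0
      · refine ⟨-1, by ring, fun h => h2 ?_⟩
        linear_combination h1 - h
      · exact ⟨1, one_pow 2, h1⟩
    -- inclusion of `k ^ m`
    let j : (Fin m → k) →ₗ[k] (Fin (m + 1) → k) :=
      { toFun := fun y => Fin.cons 0 y
        map_add' := fun y z => by
          funext i
          refine Fin.cases ?_ (fun i => ?_) i
          · simp
          · simp
        map_smul' := fun r y => by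
          funext i
          refine Fin.cases ?_ (fun i => ?_) i
          · simp
          · simp }
    have hcons : ∀ (t : k) (y : Fin m → k), (Fin.cons t y : Fin (m + 1) → k) =
        t • (Pi.single 0 1 : Fin (m + 1) → k) + j y := by
      intro t y
      funext i
      refine Fin.cases ?_ (fun i => ?_) i
      · simp [j]
      · simp [j]
    obtain ⟨y, hy⟩ := ih
      (fun i => (ℓ i.succ).comp j + (ε - c)⁻¹ • ((ℓ i.succ) (Pi.single 0 1)) • (ℓ 0).comp j)
      (fun i => b i.succ + (ε - c)⁻¹ * b 0 * (ℓ i.succ) (Pi.single 0 1))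
    refine ⟨Fin.cons ((ε - c)⁻¹ * (ℓ 0 (j y) + b 0)) y, fun i => ?_⟩
    refine Fin.cases ?_ (fun i => ?_) i
    · rw [Fin.cons_zero, hcons, map_add, map_smul, ← hc, smul_eq_mul]
      have h1 : (ε - c)⁻¹ * (ℓ 0 (j y) + b 0) * c + ℓ 0 (j y) + b 0 =
          ε * ((ε - c)⁻¹ * (ℓ 0 (j y) + b 0)) := by
        field_simp
        ring
      rw [h1, mul_pow, hε, one_mul]
    · rw [Fin.cons_succ, ← hy i, hcons, map_add, map_smul, smul_eq_mul]
      simp only [LinearMap.add_apply, LinearMap.comp_apply, LinearMap.smul_apply, smul_eq_mul]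
      ring

/-- The same for an arbitrary finite index set. -/
theorem exists_signs (h2 : (2 : k) ≠ 0) {ι : Type*} [Finite ι] (ℓ : ι → ((ι → k) →ₗ[k] k))
    (b : ι → k) : ∃ y : ι → k, ∀ i, (ℓ i y + b i) ^ 2 = y i ^ 2 := by
  obtain ⟨m, ⟨e⟩⟩ := Finite.exists_equiv_fin ι
  obtain ⟨y, hy⟩ := exists_signs_fin h2 m
    (fun i => (ℓ (e.symm i)).comp (LinearMap.funLeft k k e)) (fun i => b (e.symm i))
  refine ⟨fun i => y (e i), fun i => ?_⟩
  have h1 := hy (e i)
  rw [Equiv.symm_apply_apply] at h1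
  exact h1

end Signs

section FourSquares

/-- If `4` divides `|κ|` and `n` is a sum of four squares, then `n ∑ x_i ^ 2` and `∑ x_i ^ 2` are
isometric. -/
theorem exists_isometry {κ : Type*} [Fintype κ] {m : ℕ} (hκ : Fintype.card κ = m * 4) {n : ℚ}
    (hn : n ≠ 0) (h4 : ∃ a b c d : ℚ, n = a ^ 2 + b ^ 2 + c ^ 2 + d ^ 2) :
    ∃ T : (κ → ℚ) →ₗ[ℚ] (κ → ℚ), ∀ y, n * ∑ i, (T y i) ^ 2 = ∑ i, y i ^ 2 := by
  obtain ⟨a, b, c, d, h4⟩ := h4
  have e : κ ≃ Fin m × Fin 4 := Fintype.equivOfCardEq (by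
    rw [hκ, Fintype.card_prod, Fintype.card_fin, Fintype.card_fin])
  let M : Matrix (Fin 4) (Fin 4) ℚ := !![a, b, c, d; -b, a, -d, c; -c, d, a, -b; -d, -c, b, a]
  have hM : ∀ y : Fin 4 → ℚ, ∑ j, (M.mulVec y j) ^ 2 = n * ∑ j, y j ^ 2 := by
    intro y
    simp only [M, Matrix.mulVec, dotProduct, Fin.sum_univ_four, Matrix.of_apply, Matrix.cons_val',
      Matrix.cons_val_zero, Matrix.cons_val_one, Matrix.cons_val]
    rw [h4]
    ring
  refine ⟨{ toFun := fun y i => n⁻¹ * M.mulVec (fun j => y (e.symm ((e i).1, j))) (e i).2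
            map_add' := fun y z => ?_
            map_smul' := fun r y => ?_ }, fun y => ?_⟩
  · funext i
    have h1 : (fun j => (y + z) (e.symm ((e i).1, j))) =
        (fun j => y (e.symm ((e i).1, j))) + fun j => z (e.symm ((e i).1, j)) := rfl
    rw [h1, Matrix.mulVec_add]
    simp only [Pi.add_apply]
    ring
  · funext i
    have h1 : (fun j => (r • y) (e.symm ((e i).1, j))) =
        r • fun j => y (e.symm ((e i).1, j)) := rfl
    rw [h1, Matrix.mulVec_smul]
    simp only [Pi.smul_apply, smul_eq_mul, RingHom.id_apply]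
    ring
  · simp only [LinearMap.coe_mk, AddHom.coe_mk]
    rw [← e.symm.sum_comp, ← e.symm.sum_comp, Fintype.sum_prod_type, Fintype.sum_prod_type,
      Finset.mul_sum]
    refine Finset.sum_congr rfl fun s _ => ?_
    simp only [Equiv.apply_symm_apply, mul_pow]
    rw [← Finset.mul_sum, hM]
    field_simp

end FourSquares

section Main

variable {ι : Type*} [Fintype ι]

/-- `|ι| ≡ 1 mod 4`. -/
theorem exists_of_one {n l : ℚ} (hn : n ≠ 0) (h4 : ∃ a b c d : ℚ, n = a ^ 2 + b ^ 2 + c ^ 2 + d ^ 2)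
    (A : ι → ((ι → ℚ) →ₗ[ℚ] ℚ))
    (hA : ∀ x, ∑ i, (A i x) ^ 2 = n * ∑ i, x i ^ 2 + l * (∑ i, x i) ^ 2)
    (hv : Fintype.card ι % 4 = 1) : ∃ z w : ℚ, z ^ 2 = n + l * w ^ 2 := by
  classical
  obtain ⟨m, hm⟩ : ∃ m, Fintype.card ι = m * 4 + 1 := ⟨Fintype.card ι / 4, by omega⟩
  have e : ι ≃ Option (Fin (m * 4)) := Fintype.equivOfCardEq (by
    rw [hm, Fintype.card_option, Fintype.card_fin])
  obtain ⟨T, hT⟩ := exists_isometry (κ := Fin (m * 4)) (Fintype.card_fin _) hn h4
  -- extension by zero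
  let j : (Fin (m * 4) → ℚ) →ₗ[ℚ] (ι → ℚ) :=
    { toFun := fun y i => (e i).elim 0 y
      map_add' := fun y z => by
        funext i
        rcases h : e i with _ | s
        · simp [h]
        · simp [h]
      map_smul' := fun r y => by
        funext i
        rcases h : e i with _ | s
        · simp [h]
        · simp [h] }
  set u : ι → ℚ := Pi.single (e.symm none) 1 with hu
  obtain ⟨y, hy⟩ := exists_signs (two_ne_zero (α := ℚ))
    (fun i : Fin (m * 4) => (A (e.symm (some i))).comp (j.comp T))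
    (fun i => A (e.symm (some i)) u)
  set x : ι → ℚ := j (T y) + u with hx
  have hxs : ∀ i : Fin (m * 4), x (e.symm (some i)) = T y i := by
    intro i
    have h1 : e.symm (some i) ≠ e.symm none := fun h => by simpa using e.symm.injective h
    rw [hx, Pi.add_apply, hu, Pi.single_eq_of_ne h1, add_zero]
    change (e (e.symm (some i))).elim 0 (T y) = _
    rw [Equiv.apply_symm_apply]
    rfl
  have hxn : x (e.symm none) = 1 := by
    rw [hx, Pi.add_apply, hu, Pi.single_eq_same]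
    change (e (e.symm none)).elim 0 (T y) + 1 = _
    rw [Equiv.apply_symm_apply]
    simp
  have h1 := hA x
  rw [← e.symm.sum_comp, ← e.symm.sum_comp (fun i => x i ^ 2), Fintype.sum_option,
    Fintype.sum_option, hxn] at h1
  simp only [hxs] at h1
  have h3 : ∑ i, A (e.symm (some i)) x ^ 2 = ∑ i, y i ^ 2 := by
    refine Finset.sum_congr rfl fun i _ => ?_
    rw [hx, map_add]
    exact hy i
  rw [h3, mul_add, hT y] at h1
  exact ⟨A (e.symm none) x, ∑ i, x i, by linear_combination h1⟩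

/-- `|ι| ≡ 3 mod 4`. -/
theorem exists_of_three {n l : ℚ} (hn : n ≠ 0)
    (h4 : ∃ a b c d : ℚ, n = a ^ 2 + b ^ 2 + c ^ 2 + d ^ 2)
    (A : ι → ((ι → ℚ) →ₗ[ℚ] ℚ))
    (hA : ∀ x, ∑ i, (A i x) ^ 2 = n * ∑ i, x i ^ 2 + l * (∑ i, x i) ^ 2)
    (hv : Fintype.card ι % 4 = 3) : ∃ z w : ℚ, 1 = n * z ^ 2 - l * w ^ 2 := by
  classical
  obtain ⟨m, hm⟩ : ∃ m, Fintype.card ι + 1 = m * 4 := ⟨(Fintype.card ι + 1) / 4, by omega⟩
  obtain ⟨T, hT⟩ := exists_isometry (κ := Option ι) (by rw [Fintype.card_option, hm]) hn h4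
  -- extension by zero
  let j : (ι → ℚ) →ₗ[ℚ] (Option ι → ℚ) :=
    { toFun := fun y o => o.elim 0 y
      map_add' := fun y z => by
        funext o
        cases o <;> simp
      map_smul' := fun r y => by
        funext o
        cases o <;> simp }
  set u : Option ι → ℚ := Pi.single none 1 with hu
  obtain ⟨y, hy⟩ := exists_signs (two_ne_zero (α := ℚ))
    (fun i : ι => (A i).comp ((LinearMap.funLeft ℚ ℚ some).comp (T.comp j)))
    (fun i => A i (LinearMap.funLeft ℚ ℚ some (T u)))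
  set y' : Option ι → ℚ := j y + u with hy'
  set x : ι → ℚ := LinearMap.funLeft ℚ ℚ some (T y') with hx
  have h1 := hA x
  have h3 : ∑ i, A i x ^ 2 = ∑ i, y i ^ 2 := by
    refine Finset.sum_congr rfl fun i _ => ?_
    rw [hx, hy', map_add, map_add, map_add]
    exact hy i
  have h5 := hT y'
  rw [Fintype.sum_option, Fintype.sum_option] at h5
  have h6 : y' none = 1 := by
    rw [hy', Pi.add_apply, hu, Pi.single_eq_same]
    change (0 : ℚ) + 1 = 1
    ring
  have h7 : ∀ i, y' (some i) = y i := by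
    intro i
    rw [hy', Pi.add_apply, hu, Pi.single_eq_of_ne (by simp), add_zero]
    rfl
  have h8 : ∀ i, T y' (some i) = x i := fun i => rfl
  simp only [h6, h7, h8] at h5
  rw [h3] at h1
  exact ⟨T y' none, ∑ i, x i, by linear_combination -h1 - h5⟩

end Main

end Fermat.Agent.Cor.BR
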