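import Fermat.Agent.Corollaries.BR.Basic

/-!
# The theorem of Bruck, Ryser and Chowla

`B : β → Finset P` are the blocks of a symmetric `2-(v, k, l)` design: `v` points, `v` blocks, every
block has `k` points, any two different points are contained in exactly `l` blocks.

* `IsSymDesign.replication`: every point is contained in `k` blocks;
* `IsSymDesign.isSquare_of_even`: if `v` is even, then `k - l` is a square (Schützenberger 1949);
* `IsSymDesign.bruck_ryser_chowla`: if `v` is odd, then
  `z ^ 2 = (k - l) x ^ 2 + (-1) ^ ((v - 1) / 2) l y ^ 2` has a non-trivial solution in integers.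
-/

set_option autoImplicit false

namespace Fermat.Agent.Cor.BR

open Finset

/-- Symmetric `2-(v, k, l)` designs: `v` points, `v` blocks, every block has `k` points, any two
different points are contained in exactly `l` blocks. -/
structure IsSymDesign {P β : Type*} [Fintype P] [Fintype β] [DecidableEq P] (B : β → Finset P)
    (v k l : ℕ) : Prop where
  points : Fintype.card P = v
  blocks : Fintype.card β = v
  block_card : ∀ i, (B i).card = k
  pair : ∀ p q, p ≠ q → (univ.filter fun i => p ∈ B i ∧ q ∈ B i).card = l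

namespace IsSymDesign

variable {P β : Type*} [Fintype P] [Fintype β] [DecidableEq P] {B : β → Finset P} {v k l : ℕ}

theorem replication_mul (h : IsSymDesign B v k l) (p : P) :
    (univ.filter fun i => p ∈ B i).card * (k - 1) = l * (v - 1) := by
  classical
  have h1 := sum_card_bipartiteAbove_eq_sum_card_bipartiteBelow (fun (q : P) (i : β) => q ∈ B i)
    (s := univ.erase p) (t := univ.filter fun i => p ∈ B i)
  have h2 : ∀ q ∈ univ.erase p, (bipartiteAbove (fun (q : P) (i : β) => q ∈ B i)
      (univ.filter fun i => p ∈ B i) q).card = l := by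
    intro q hq
    rw [bipartiteAbove, filter_filter]
    exact h.pair p q (ne_of_mem_erase hq).symm
  have h3 : ∀ i ∈ univ.filter fun i => p ∈ B i, (bipartiteBelow (fun (q : P) (i : β) => q ∈ B i)
      (univ.erase p) i).card = k - 1 := by
    intro i hi
    have h4 : bipartiteBelow (fun (q : P) (i : β) => q ∈ B i) (univ.erase p) i =
        (B i).erase p := by
      ext q
      simp [bipartiteBelow]
    rw [h4, card_erase_of_mem (mem_filter.mp hi).2, h.block_card]
  rw [sum_congr rfl h2, sum_congr rfl h3, sum_const, sum_const, card_erase_of_mem (mem_univ p),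
    card_univ, h.points, smul_eq_mul, smul_eq_mul] at h1
  rw [← h1, mul_comm]

/-- Every point is contained in `k` blocks. -/
theorem replication (h : IsSymDesign B v k l) (hk : 2 ≤ k) (p : P) :
    (univ.filter fun i => p ∈ B i).card = k := by
  classical
  have hr : ∀ q, (univ.filter fun i => q ∈ B i).card = (univ.filter fun i => p ∈ B i).card := by
    intro q
    have h1 := h.replication_mul q
    rw [← h.replication_mul p] at h1
    exact Nat.eq_of_mul_eq_mul_right (by omega) h1
  have h1 := sum_card_bipartiteAbove_eq_sum_card_bipartiteBelow (fun (q : P) (i : β) => q ∈ B i)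
    (s := univ) (t := univ)
  have h2 : ∀ q ∈ (univ : Finset P), (bipartiteAbove (fun (q : P) (i : β) => q ∈ B i)
      univ q).card = (univ.filter fun i => p ∈ B i).card := fun q _ => hr q
  have h3 : ∀ i ∈ (univ : Finset β), (bipartiteBelow (fun (q : P) (i : β) => q ∈ B i)
      univ i).card = k := by
    intro i _
    have h4 : bipartiteBelow (fun (q : P) (i : β) => q ∈ B i) univ i = B i := by
      ext q
      simp [bipartiteBelow]
    rw [h4, h.block_card]
  rw [sum_congr rfl h2, sum_congr rfl h3, sum_const, sum_const, card_univ, card_univ, h.points,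
    h.blocks, smul_eq_mul, smul_eq_mul] at h1
  have hv : 0 < v := by
    rw [← h.points]
    exact Fintype.card_pos_iff.mpr ⟨p⟩
  exact Nat.eq_of_mul_eq_mul_left hv h1

/-- `k (k - 1) = l (v - 1)`. -/
theorem mul_eq (h : IsSymDesign B v k l) (hk : 2 ≤ k) (hv : 0 < v) :
    k * (k - 1) = l * (v - 1) := by
  have : 0 < Fintype.card P := by rw [h.points]; exact hv
  obtain ⟨p⟩ := Fintype.card_pos_iff.mp this
  rw [← h.replication_mul p, h.replication hk p]

theorem lt (h : IsSymDesign B v k l) (hk : 2 ≤ k) (hkv : k < v) : l < k := by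
  have h1 := h.mul_eq hk (by omega)
  by_contra hcon
  push Not at hcon
  have h2 : k * (k - 1) < l * (v - 1) :=
    calc k * (k - 1) < k * (v - 1) := Nat.mul_lt_mul_of_pos_left (by omega) (by omega)
      _ ≤ l * (v - 1) := Nat.mul_le_mul_right _ hcon
  omega

/-- The number of blocks containing `p` and `q`. -/
theorem pair' (h : IsSymDesign B v k l) (hk : 2 ≤ k) (p q : P) :
    ((univ.filter fun i => p ∈ B i ∧ q ∈ B i).card : ℚ) =
      l + if p = q then (k : ℚ) - l else 0 := by
  split_ifs with hpq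
  · subst hpq
    simp only [and_self]
    rw [h.replication hk]
    ring
  · rw [h.pair p q hpq, add_zero]

/-- The quadratic form of the design. -/
theorem sum_sq (h : IsSymDesign B v k l) (hk : 2 ≤ k) (x : P → ℚ) :
    ∑ i, (∑ p ∈ B i, x p) ^ 2 = ((k : ℚ) - l) * ∑ p, x p ^ 2 + l * (∑ p, x p) ^ 2 := by
  have h1 : ∀ i, (∑ p ∈ B i, x p) ^ 2 =
      ∑ p, ∑ q, if p ∈ B i ∧ q ∈ B i then x p * x q else 0 := by
    intro i
    rw [sq, sum_mul_sum]
    rw [← sum_filter_add_sum_filter_not univ (fun p => p ∈ B i), ← add_zero (∑ p ∈ B i, _)]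
    congr 1
    · refine sum_congr (by ext p; simp) fun p hp => ?_
      have hp' : p ∈ B i := by simpa using hp
      simp only [hp', true_and]
      rw [← sum_filter]
      exact sum_congr (by ext q; simp) fun q _ => rfl
    · refine (sum_eq_zero fun p hp => sum_eq_zero fun q _ => ?_).symm
      rw [if_neg fun h' => (mem_filter.mp hp).2 h'.1]
  simp only [h1]
  rw [sum_comm]
  have h2 : ∀ p q, ∑ i, (if p ∈ B i ∧ q ∈ B i then x p * x q else 0) =
      l * (x p * x q) + if p = q then ((k : ℚ) - l) * x p ^ 2 else 0 := by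
    intro p q
    rw [← sum_filter, sum_const, nsmul_eq_mul, h.pair' hk]
    split_ifs with hpq
    · subst hpq
      ring
    · ring
  have h3 : ∀ p, ∑ i, ∑ q, (if p ∈ B i ∧ q ∈ B i then x p * x q else 0) =
      l * (x p * ∑ q, x q) + ((k : ℚ) - l) * x p ^ 2 := by
    intro p
    rw [sum_comm, sum_congr rfl fun q _ => h2 p q, sum_add_distrib, sum_ite_eq,
      if_pos (mem_univ p), mul_sum, mul_sum]
  rw [sum_congr rfl fun p _ => h3 p, sum_add_distrib, ← mul_sum, ← mul_sum, ← sum_mul]
  ring

/-- The linear form of a block. -/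
def form (B : β → Finset P) (i : β) : (P → ℚ) →ₗ[ℚ] ℚ := ∑ p ∈ B i, LinearMap.proj p

omit [Fintype P] [Fintype β] [DecidableEq P] in
theorem form_apply (B : β → Finset P) (i : β) (x : P → ℚ) : form B i x = ∑ p ∈ B i, x p := by
  simp [form]

theorem four_squares (h : IsSymDesign B v k l) (hk : 2 ≤ k) (hkv : k < v) :
    ∃ a b c d : ℚ, ((k : ℚ) - l) = a ^ 2 + b ^ 2 + c ^ 2 + d ^ 2 := by
  obtain ⟨a, b, c, d, habcd⟩ := Nat.sum_four_squares (k - l)
  refine ⟨a, b, c, d, ?_⟩
  rw [← Nat.cast_sub (h.lt hk hkv).le, ← habcd]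
  push_cast
  ring

/-- **The theorem of Bruck, Ryser and Chowla**, `v` odd. -/
theorem bruck_ryser_chowla (h : IsSymDesign B v k l) (hk : 2 ≤ k) (hkv : k < v) (hv : Odd v) :
    ∃ x y z : ℤ, ¬ (x = 0 ∧ y = 0 ∧ z = 0) ∧
      z ^ 2 = ((k : ℤ) - l) * x ^ 2 + (-1) ^ ((v - 1) / 2) * l * y ^ 2 := by
  have hlk := h.lt hk hkv
  have hn : ((k : ℚ) - l) ≠ 0 := by
    rw [← Nat.cast_sub hlk.le]
    exact_mod_cast (by omega : k - l ≠ 0)
  have e : P ≃ β := Fintype.equivOfCardEq (by rw [h.points, h.blocks])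
  have hA : ∀ x : P → ℚ, ∑ i, (form B (e i) x) ^ 2 =
      ((k : ℚ) - l) * ∑ p, x p ^ 2 + l * (∑ p, x p) ^ 2 := by
    intro x
    rw [← h.sum_sq hk x, ← e.sum_comp]
    exact sum_congr rfl fun i _ => by rw [form_apply]
  have h4 := h.four_squares hk hkv
  have hodd : v % 4 = 1 ∨ v % 4 = 3 := by
    rw [Nat.odd_iff] at hv
    omega
  rcases hodd with hv1 | hv3
  · obtain ⟨z, w, hzw⟩ := exists_of_one hn h4 (fun i => form B (e i)) hA
      (by rw [h.points]; exact hv1)
    have hs : (-1 : ℤ) ^ ((v - 1) / 2) = 1 := Even.neg_one_pow ⟨(v - 1) / 4, by omega⟩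
    refine ⟨z.den * w.den, w.num * z.den, z.num * w.den, ?_, ?_⟩
    · rintro ⟨h1, -, -⟩
      exact mul_ne_zero (Int.natCast_ne_zero.mpr z.den_ne_zero)
        (Int.natCast_ne_zero.mpr w.den_ne_zero) h1
    · rw [hs, one_mul]
      have hz : (z.den : ℚ) ≠ 0 := by exact_mod_cast z.den_ne_zero
      have hw : (w.den : ℚ) ≠ 0 := by exact_mod_cast w.den_ne_zero
      have h1 : (z.num : ℚ) = z * z.den := (Rat.mul_den_eq_num z).symm
      have h2 : (w.num : ℚ) = w * w.den := (Rat.mul_den_eq_num w).symm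
      have h3 : ((z.num * w.den : ℤ) : ℚ) ^ 2 = ((k : ℚ) - l) * ((z.den * w.den : ℤ) : ℚ) ^ 2 +
          l * ((w.num * z.den : ℤ) : ℚ) ^ 2 := by
        push_cast
        rw [h1, h2]
        linear_combination (z.den : ℚ) ^ 2 * (w.den : ℚ) ^ 2 * hzw
      exact_mod_cast h3
  · obtain ⟨z, w, hzw⟩ := exists_of_three hn h4 (fun i => form B (e i)) hA
      (by rw [h.points]; exact hv3)
    have hs : (-1 : ℤ) ^ ((v - 1) / 2) = -1 := Odd.neg_one_pow ⟨(v - 3) / 4, by omega⟩
    refine ⟨z.num * w.den, w.num * z.den, z.den * w.den, ?_, ?_⟩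
    · rintro ⟨-, -, h1⟩
      exact mul_ne_zero (Int.natCast_ne_zero.mpr z.den_ne_zero)
        (Int.natCast_ne_zero.mpr w.den_ne_zero) h1
    · rw [hs]
      have h1 : (z.num : ℚ) = z * z.den := (Rat.mul_den_eq_num z).symm
      have h2 : (w.num : ℚ) = w * w.den := (Rat.mul_den_eq_num w).symm
      have h3 : ((z.den * w.den : ℤ) : ℚ) ^ 2 = ((k : ℚ) - l) * ((z.num * w.den : ℤ) : ℚ) ^ 2 +
          -1 * l * ((w.num * z.den : ℤ) : ℚ) ^ 2 := by
        push_cast
        rw [h1, h2]
        linear_combination (z.den : ℚ) ^ 2 * (w.den : ℚ) ^ 2 * hzw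
      exact_mod_cast h3

/-- **The theorem of Bruck, Ryser and Chowla**, `v` even: `k - l` is a square. -/
theorem isSquare_of_even (h : IsSymDesign B v k l) (hk : 2 ≤ k) (hkv : k < v) (hv : Even v) :
    IsSquare (k - l) := by
  classical
  have hlk := h.lt hk hkv
  have hn : ((k : ℚ) - l) ≠ 0 := by
    rw [← Nat.cast_sub hlk.le]
    exact_mod_cast (by omega : k - l ≠ 0)
  have e : P ≃ β := Fintype.equivOfCardEq (by rw [h.points, h.blocks])
  let M : Matrix P P ℚ := Matrix.of fun i p => if p ∈ B (e i) then 1 else 0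
  have hM : M.transpose * M = ((k : ℚ) - l) • (1 + Matrix.replicateCol Unit
      (fun _ : P => (l : ℚ) / ((k : ℚ) - l)) * Matrix.replicateRow Unit (fun _ : P => (1 : ℚ))) := by
    ext p q
    rw [Matrix.mul_apply, Matrix.smul_apply, Matrix.add_apply, Matrix.mul_apply, Matrix.one_apply]
    simp only [M, Matrix.transpose_apply, Matrix.of_apply, Matrix.replicateCol_apply,
      Matrix.replicateRow_apply, univ_unique, sum_const, card_singleton, one_smul, smul_eq_mul,
      mul_one]
    have hprod : ∀ j, (if p ∈ B (e j) then (1 : ℚ) else 0) * (if q ∈ B (e j) then 1 else 0) =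
        if p ∈ B (e j) ∧ q ∈ B (e j) then 1 else 0 := by
      intro j
      by_cases h1 : p ∈ B (e j) <;> by_cases h2 : q ∈ B (e j) <;> simp [h1, h2]
    simp only [hprod]
    have h1 : ∑ i, (if p ∈ B (e i) ∧ q ∈ B (e i) then (1 : ℚ) else 0) =
        ((univ.filter fun i => p ∈ B i ∧ q ∈ B i).card : ℚ) := by
      rw [e.sum_comp fun i => if p ∈ B i ∧ q ∈ B i then (1 : ℚ) else 0, card_filter]
      push_cast
      rfl
    rw [h1, h.pair' hk]
    split_ifs with hpq
    · field_simp
      ring
    · field_simp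
      ring
  have hdet := congrArg Matrix.det hM
  rw [Matrix.det_mul, Matrix.det_transpose, Matrix.det_smul, h.points,
    Matrix.det_one_add_replicateCol_mul_replicateRow] at hdet
  simp only [dotProduct, one_mul, sum_const, card_univ, h.points, nsmul_eq_mul] at hdet
  obtain ⟨m, rfl⟩ := hv
  have hk2 : ((k : ℚ)) ^ 2 = ((k : ℚ) - l) + l * ((m + m : ℕ) : ℚ) := by
    have h1 := h.mul_eq hk (by omega)
    have h2 := congrArg (fun t : ℕ => (t : ℚ)) h1
    simp only [Nat.cast_mul] at h2
    rw [Nat.cast_sub (by omega), Nat.cast_sub (by omega)] at h2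
    push_cast at h2 ⊢
    linear_combination h2
  have hk0 : (k : ℚ) ≠ 0 := by exact_mod_cast (by omega : k ≠ 0)
  have hsq : IsSquare ((k - l : ℕ) : ℚ) := by
    rw [Nat.cast_sub hlk.le]
    refine ⟨M.det * ((k : ℚ) - l) / (((k : ℚ) - l) ^ m * k), ?_⟩
    rw [div_mul_div_comm, eq_div_iff (mul_ne_zero (mul_ne_zero (pow_ne_zero _ hn) hk0)
      (mul_ne_zero (pow_ne_zero _ hn) hk0))]
    have h3 : M.det * M.det * ((k : ℚ) - l) = ((k : ℚ) - l) ^ (m + m) *
        (((k : ℚ) - l) + l * ((m + m : ℕ) : ℚ)) := by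
      rw [hdet]
      field_simp
    rw [← hk2] at h3
    linear_combination (-((k : ℚ) - l)) * h3
  exact Rat.isSquare_natCast_iff.mp hsq

end IsSymDesign

end Fermat.Agent.Cor.BR
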