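import Fermat.Agent.Corollaries.BR.Design

/-!
# The theorem of Bruck and Ryser on finite projective planes

* `isSymDesign_plane`: a finite projective plane of order `n` is a symmetric design with parameters
  `(n ^ 2 + n + 1, n + 1, 1)`;
* `bruck_ryser`: if the order `n` of a finite projective plane is congruent to `1` or `2` modulo `4`,
  then `n` is a sum of two squares;
* `order_ne_six`: there is no projective plane of order `6`; `order_ne_fourteen`,
  `order_ne_twenty_one`, `order_ne_twenty_two`;
* `not_isSymDesign_22_7_2`: there is no symmetric design with parameters `(22, 7, 2)`.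
-/

set_option autoImplicit false

namespace Fermat.Agent.Cor.BR

open Finset Configuration

/-- If `n x ^ 2` is a sum of two squares, `x ≠ 0`, then `n` is a sum of two squares. -/
theorem sum_two_sq_of_mul_sq {n x : ℕ} (hx : x ≠ 0) (h : ∃ a b, n * x ^ 2 = a ^ 2 + b ^ 2) :
    ∃ a b, n = a ^ 2 + b ^ 2 := by
  rcases Nat.eq_zero_or_pos n with rfl | hn
  · exact ⟨0, 0, rfl⟩
  rw [Nat.eq_sq_add_sq_iff] at h ⊢
  intro q hq hq3
  have hqp := Nat.prime_of_mem_primeFactors hq
  have : Fact q.Prime := ⟨hqp⟩
  have h1 := h q (by
    rw [Nat.mem_primeFactors] at hq ⊢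
    exact ⟨hqp, hq.2.1.mul_right _, mul_ne_zero hn.ne' (pow_ne_zero 2 hx)⟩) hq3
  rw [padicValNat.mul hn.ne' (pow_ne_zero 2 hx), padicValNat.pow, Nat.even_add] at h1
  exact h1.mpr (even_two_mul _)

variable (P L : Type*) [Membership P L] [ProjectivePlane P L]

/-- A finite projective plane is a symmetric design. -/
theorem isSymDesign_plane [Fintype P] [Fintype L] [DecidableEq P]
    [∀ l : L, DecidablePred fun p : P => p ∈ l] :
    IsSymDesign (fun l : L => univ.filter fun p : P => p ∈ l)
      (ProjectivePlane.order P L ^ 2 + ProjectivePlane.order P L + 1)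
      (ProjectivePlane.order P L + 1) 1 where
  points := ProjectivePlane.card_points P L
  blocks := ProjectivePlane.card_lines P L
  block_card l := by
    rw [← ProjectivePlane.pointCount_eq P l, pointCount, Nat.card_eq_fintype_card,
      Fintype.card_subtype]
  pair p q hpq := by
    obtain ⟨l, ⟨hl1, hl2⟩, hu⟩ := HasLines.existsUnique_line P L p q hpq
    rw [card_eq_one]
    refine ⟨l, ?_⟩
    ext l'
    simp only [mem_filter, mem_univ, true_and, mem_singleton]
    constructor
    · exact fun h => hu l' h
    · rintro rfl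
      exact ⟨hl1, hl2⟩

/-- **The theorem of Bruck and Ryser** (1949): if there is a finite projective plane of order `n`
and `n` is congruent to `1` or `2` modulo `4`, then `n` is a sum of two squares. -/
theorem bruck_ryser [Finite P] [Finite L] (h : ProjectivePlane.order P L % 4 = 1 ∨
    ProjectivePlane.order P L % 4 = 2) : ∃ a b : ℕ, ProjectivePlane.order P L = a ^ 2 + b ^ 2 := by
  classical
  cases nonempty_fintype P
  cases nonempty_fintype L
  have hD := isSymDesign_plane P L
  have h1 := ProjectivePlane.one_lt_order P L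
  set n := ProjectivePlane.order P L with hn
  have h4 : (n ^ 2 + n + 1) % 4 = 3 := by
    rw [sq]
    rcases h with h | h <;> simp [Nat.add_mod, Nat.mul_mod, h]
  obtain ⟨x, y, z, h0, hxyz⟩ := hD.bruck_ryser_chowla (by omega) (by nlinarith)
    (by rw [Nat.odd_iff]; omega)
  have hs : (-1 : ℤ) ^ ((n ^ 2 + n + 1 - 1) / 2) = -1 :=
    Odd.neg_one_pow ⟨(n ^ 2 + n + 1 - 3) / 4, by omega⟩
  rw [hs] at hxyz
  push_cast at hxyz
  have h2 : (n : ℤ) * x ^ 2 = z ^ 2 + y ^ 2 := by linear_combination -hxyz
  have hx : x ≠ 0 := by
    rintro rfl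
    have hz : z = 0 := by nlinarith [sq_nonneg z, sq_nonneg y]
    have hy : y = 0 := by nlinarith [sq_nonneg z, sq_nonneg y]
    exact h0 ⟨rfl, hy, hz⟩
  refine sum_two_sq_of_mul_sq (Int.natAbs_ne_zero.mpr hx) ⟨z.natAbs, y.natAbs, ?_⟩
  zify
  simpa only [sq_abs] using h2

variable {P L} in
theorem order_ne_of [Finite P] [Finite L] {n : ℕ} (h4 : n % 4 = 1 ∨ n % 4 = 2)
    (h : ∀ a ≤ n, ∀ b ≤ n, a ^ 2 + b ^ 2 ≠ n) : ProjectivePlane.order P L ≠ n := by
  intro hn
  obtain ⟨a, b, hab⟩ := bruck_ryser P L (by rw [hn]; exact h4)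
  rw [hn] at hab
  exact h a (by nlinarith) b (by nlinarith) hab.symm

/-- There is no projective plane of order `6`. -/
theorem order_ne_six [Finite P] [Finite L] : ProjectivePlane.order P L ≠ 6 :=
  order_ne_of (by decide) (by decide)

/-- There is no projective plane of order `14`. -/
theorem order_ne_fourteen [Finite P] [Finite L] : ProjectivePlane.order P L ≠ 14 :=
  order_ne_of (by decide) (by decide)

/-- There is no projective plane of order `21`. -/
theorem order_ne_twenty_one [Finite P] [Finite L] : ProjectivePlane.order P L ≠ 21 :=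
  order_ne_of (by decide) (by decide)

/-- There is no projective plane of order `22`. -/
theorem order_ne_twenty_two [Finite P] [Finite L] : ProjectivePlane.order P L ≠ 22 :=
  order_ne_of (by decide) (by decide)

/-- There is no symmetric design with parameters `(22, 7, 2)`. -/
theorem not_isSymDesign_22_7_2 {P β : Type*} [Fintype P] [Fintype β] [DecidableEq P]
    (B : β → Finset P) : ¬ IsSymDesign B 22 7 2 := by
  intro h
  obtain ⟨r, hr⟩ := h.isSquare_of_even (by norm_num) (by norm_num) (by decide)
  have h1 : r < 3 := by nlinarith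
  interval_cases r <;> simp at hr

end Fermat.Agent.Cor.BR
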