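import Fermat.Agent.Corollaries.BR.Plane

/-!
# Integral matrices with `Aᵀ A = m`

* `exists_transpose_mul_iff`: for `m ≥ 1` there is an integral `N × N` matrix `A` with `Aᵀ A = m` iff
  `m` is a square if `N` is odd and `m` is a sum of two squares if `N ≡ 2 mod 4`;
* `weighing_odd`, `weighing_two`: necessary conditions for weighing matrices;
* `conference`: a conference matrix of order `N ≡ 2 mod 4` exists only if `N - 1` is a sum of two
  squares (Belevitch 1950, Raghavarao 1960).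
-/

set_option autoImplicit false

namespace Fermat.Agent.Cor.BR

open Finset Matrix

/-- `|ι| ≡ 2 mod 4`: if `n ∑ x_i ^ 2` is isometric to `∑ x_i ^ 2`, then `n` is a sum of two
squares. -/
theorem exists_of_two {ι : Type*} [Fintype ι] {n : ℚ} (hn : n ≠ 0)
    (h4 : ∃ a b c d : ℚ, n = a ^ 2 + b ^ 2 + c ^ 2 + d ^ 2) (A : ι → ((ι → ℚ) →ₗ[ℚ] ℚ))
    (hA : ∀ x, ∑ i, (A i x) ^ 2 = n * ∑ i, x i ^ 2)
    (hv : Fintype.card ι % 4 = 2) : ∃ a b : ℚ, n = a ^ 2 + b ^ 2 := by
  classical
  obtain ⟨m, hm⟩ : ∃ m, Fintype.card ι = m * 4 + 2 := ⟨Fintype.card ι / 4, by omega⟩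
  have e : ι ≃ Option (Option (Fin (m * 4))) := Fintype.equivOfCardEq (by
    rw [hm, Fintype.card_option, Fintype.card_option, Fintype.card_fin])
  obtain ⟨T, hT⟩ := exists_isometry (κ := Fin (m * 4)) (Fintype.card_fin _) hn h4
  let f : (Fin (m * 4) → ℚ) → Option (Option (Fin (m * 4))) → ℚ := fun y o =>
    o.elim 0 fun o' => o'.elim 0 y
  let j : (Fin (m * 4) → ℚ) →ₗ[ℚ] (ι → ℚ) :=
    { toFun := fun y i => f y (e i)
      map_add' := fun y z => by
        funext i
        rcases h : e i with _ | _ | s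
        · simp [f, h]
        · simp [f, h]
        · simp [f, h]
      map_smul' := fun r y => by
        funext i
        rcases h : e i with _ | _ | s
        · simp [f, h]
        · simp [f, h]
        · simp [f, h] }
  set u : ι → ℚ := Pi.single (e.symm none) 1 with hu
  obtain ⟨y, hy⟩ := exists_signs (two_ne_zero (α := ℚ))
    (fun i : Fin (m * 4) => (A (e.symm (some (some i)))).comp (j.comp T))
    (fun i => A (e.symm (some (some i))) u)
  set x : ι → ℚ := j (T y) + u with hx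
  have hj : ∀ o, j (T y) (e.symm o) = f (T y) o := by
    intro o
    change f (T y) (e (e.symm o)) = _
    rw [Equiv.apply_symm_apply]
  have hxs : ∀ o, x (e.symm (some o)) = o.elim 0 (T y) := by
    intro o
    have h1 : e.symm (some o) ≠ e.symm none := fun h => by simpa using e.symm.injective h
    rw [hx, Pi.add_apply, hu, Pi.single_eq_of_ne h1, add_zero, hj]
    rfl
  have hxn : x (e.symm none) = 1 := by
    rw [hx, Pi.add_apply, hu, Pi.single_eq_same, hj]
    change (0 : ℚ) + 1 = 1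
    ring
  have h1 := hA x
  rw [← e.symm.sum_comp, ← e.symm.sum_comp (fun i => x i ^ 2), Fintype.sum_option,
    Fintype.sum_option, Fintype.sum_option, Fintype.sum_option, hxn] at h1
  simp only [hxs, Option.elim] at h1
  have h3 : ∑ i, A (e.symm (some (some i))) x ^ 2 = ∑ i, y i ^ 2 := by
    refine Finset.sum_congr rfl fun i _ => ?_
    rw [hx, map_add]
    exact hy i
  rw [h3] at h1
  refine ⟨A (e.symm none) x, A (e.symm (some none)) x, ?_⟩
  have h5 := hT y
  linear_combination -h1 - h5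

/-- A natural number which is a sum of two squares of rational numbers is a sum of two squares. -/
theorem sum_two_sq_of_rat {m : ℕ} (h : ∃ a b : ℚ, (m : ℚ) = a ^ 2 + b ^ 2) :
    ∃ a b : ℕ, m = a ^ 2 + b ^ 2 := by
  obtain ⟨a, b, hab⟩ := h
  refine sum_two_sq_of_mul_sq (x := a.den * b.den) (mul_ne_zero a.den_ne_zero b.den_ne_zero)
    ⟨(a.num * b.den).natAbs, (b.num * a.den).natAbs, ?_⟩
  zify
  rw [sq_abs, sq_abs]
  have h1 : (a.num : ℚ) = a * a.den := (Rat.mul_den_eq_num a).symm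
  have h2 : (b.num : ℚ) = b * b.den := (Rat.mul_den_eq_num b).symm
  have h3 : (m : ℚ) * ((a.den * b.den : ℤ) : ℚ) ^ 2 = ((a.num * b.den : ℤ) : ℚ) ^ 2 +
      ((b.num * a.den : ℤ) : ℚ) ^ 2 := by
    push_cast
    rw [h1, h2]
    linear_combination (a.den : ℚ) ^ 2 * (b.den : ℚ) ^ 2 * hab
  exact_mod_cast h3

/-- The size is odd: `m` is a square. -/
theorem isSquare_of_transpose_mul {ι : Type*} [Fintype ι] [DecidableEq ι] {m : ℕ} (hm : 0 < m)
    (A : Matrix ι ι ℤ) (hA : A.transpose * A = (m : ℤ) • (1 : Matrix ι ι ℤ))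
    (hι : Odd (Fintype.card ι)) : IsSquare m := by
  obtain ⟨t, ht⟩ := hι
  have h1 := congrArg Matrix.det hA
  rw [det_mul, det_transpose, det_smul, det_one, mul_one, ht] at h1
  have hm0 : (m : ℚ) ≠ 0 := by exact_mod_cast hm.ne'
  have h2 : IsSquare ((m : ℕ) : ℚ) := by
    refine ⟨(A.det : ℚ) / (m : ℚ) ^ t, ?_⟩
    rw [div_mul_div_comm, eq_div_iff (mul_ne_zero (pow_ne_zero _ hm0) (pow_ne_zero _ hm0))]
    have h3 : (A.det : ℚ) * A.det = (m : ℚ) ^ (2 * t + 1) := by exact_mod_cast h1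
    rw [h3]
    ring
  exact Rat.isSquare_natCast_iff.mp h2

/-- The size is `≡ 2 mod 4`: `m` is a sum of two squares. -/
theorem sum_two_sq_of_transpose_mul {ι : Type*} [Fintype ι] [DecidableEq ι] {m : ℕ} (hm : 0 < m)
    (A : Matrix ι ι ℤ) (hA : A.transpose * A = (m : ℤ) • (1 : Matrix ι ι ℤ))
    (hι : Fintype.card ι % 4 = 2) : ∃ a b : ℕ, m = a ^ 2 + b ^ 2 := by
  apply sum_two_sq_of_rat
  set B : Matrix ι ι ℚ := A.map (Int.castRingHom ℚ) with hB
  have hBB : B.transpose * B = (m : ℚ) • (1 : Matrix ι ι ℚ) := by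
    rw [hB, ← transpose_map, ← Matrix.map_mul, hA]
    ext i j
    rw [Matrix.map_apply, Matrix.smul_apply, Matrix.smul_apply, Matrix.one_apply,
      Matrix.one_apply]
    split_ifs <;> simp
  have h4 : ∃ a b c d : ℚ, (m : ℚ) = a ^ 2 + b ^ 2 + c ^ 2 + d ^ 2 := by
    obtain ⟨a, b, c, d, h⟩ := Nat.sum_four_squares m
    exact ⟨a, b, c, d, by rw [← h]; push_cast; ring⟩
  refine exists_of_two (by exact_mod_cast hm.ne') h4
    (fun i => (LinearMap.proj i).comp B.mulVecLin) (fun x => ?_) hι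
  have h1 : ∑ i, ((LinearMap.proj i).comp B.mulVecLin : (ι → ℚ) →ₗ[ℚ] ℚ) x ^ 2 =
      (B.mulVec x) ⬝ᵥ (B.mulVec x) := by
    rw [dotProduct]
    exact sum_congr rfl fun i _ => sq _
  rw [h1, dotProduct_mulVec, ← mulVec_transpose, mulVec_mulVec, hBB, smul_mulVec, one_mulVec,
    smul_dotProduct, dotProduct, smul_eq_mul]
  congr 1
  exact sum_congr rfl fun i _ => (sq _).symm

/-- Block matrices. -/
theorem exists_of_block {s : ℕ} {m : ℤ} (S : Matrix (Fin s) (Fin s) ℤ)
    (hS : S.transpose * S = m • (1 : Matrix (Fin s) (Fin s) ℤ)) {N : ℕ} (hN : s ∣ N) :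
    ∃ A : Matrix (Fin N) (Fin N) ℤ, A.transpose * A = m • (1 : Matrix (Fin N) (Fin N) ℤ) := by
  obtain ⟨t, rfl⟩ := hN
  let e : Fin (s * t) ≃ Fin s × Fin t := finProdFinEquiv.symm
  refine ⟨(blockDiagonal fun _ : Fin t => S).submatrix e e, ?_⟩
  rw [transpose_submatrix, submatrix_mul_equiv, blockDiagonal_transpose, ← blockDiagonal_mul]
  simp only [hS]
  have h1 : blockDiagonal (fun _ : Fin t => m • (1 : Matrix (Fin s) (Fin s) ℤ)) =
      m • (1 : Matrix (Fin s × Fin t) (Fin s × Fin t) ℤ) := by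
    have h2 : (fun _ : Fin t => m • (1 : Matrix (Fin s) (Fin s) ℤ)) =
        m • (1 : Fin t → Matrix (Fin s) (Fin s) ℤ) := rfl
    rw [h2, blockDiagonal_smul, blockDiagonal_one]
  rw [h1]
  have h3 : (m • (1 : Matrix (Fin s × Fin t) (Fin s × Fin t) ℤ)).submatrix e e =
      m • (1 : Matrix (Fin s × Fin t) (Fin s × Fin t) ℤ).submatrix e e := rfl
  rw [h3, submatrix_one_equiv]

/-- **Integral matrices with `Aᵀ A = m`.** -/
theorem exists_transpose_mul_iff {m : ℕ} (hm : 0 < m) (N : ℕ) :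
    (∃ A : Matrix (Fin N) (Fin N) ℤ, A.transpose * A = (m : ℤ) • (1 : Matrix (Fin N) (Fin N) ℤ)) ↔
      (Odd N → IsSquare m) ∧ (N % 4 = 2 → ∃ a b : ℕ, m = a ^ 2 + b ^ 2) := by
  constructor
  · rintro ⟨A, hA⟩
    exact ⟨fun h => isSquare_of_transpose_mul hm A hA (by rwa [Fintype.card_fin]),
      fun h => sum_two_sq_of_transpose_mul hm A hA (by rwa [Fintype.card_fin])⟩
  · rintro ⟨h1, h2⟩
    rcases Nat.even_or_odd N with hN | hN
    · by_cases h4 : N % 4 = 2
      · obtain ⟨a, b, hab⟩ := h2 h4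
        refine exists_of_block (s := 2) !![(a : ℤ), b; -b, a] ?_ hN.two_dvd
        ext i j
        fin_cases i <;> fin_cases j
        · simp [Matrix.mul_apply, Fin.sum_univ_two, hab]
          ring
        · simp [Matrix.mul_apply, Fin.sum_univ_two]
          ring
        · simp [Matrix.mul_apply, Fin.sum_univ_two]
          ring
        · simp [Matrix.mul_apply, Fin.sum_univ_two, hab]
          ring
      · obtain ⟨a, b, c, d, habcd⟩ := Nat.sum_four_squares m
        have h4' : 4 ∣ N := by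
          rw [Nat.even_iff] at hN
          omega
        refine exists_of_block (s := 4) !![(a : ℤ), b, c, d; -b, a, -d, c; -c, d, a, -b;
          -d, -c, b, a] ?_ h4'
        have hm' : (m : ℤ) = a ^ 2 + b ^ 2 + c ^ 2 + d ^ 2 := by exact_mod_cast habcd.symm
        rw [hm']
        ext i j
        fin_cases i <;> fin_cases j <;>
          simp [Matrix.mul_apply, Fin.sum_univ_four] <;> ring
    · obtain ⟨r, hr⟩ := h1 hN
      refine exists_of_block (s := 1) !![(r : ℤ)] ?_ (one_dvd N)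
      ext i j
      fin_cases i
      fin_cases j
      simp [Matrix.mul_apply, hr]

/-- **Weighing matrices** `W(N, w)` of odd order: `w` is a square. -/
theorem weighing_odd {N w : ℕ} (hw : 0 < w) (hN : Odd N) (W : Matrix (Fin N) (Fin N) ℤ)
    (hW : W.transpose * W = (w : ℤ) • (1 : Matrix (Fin N) (Fin N) ℤ)) : IsSquare w :=
  ((exists_transpose_mul_iff hw N).mp ⟨W, hW⟩).1 hN

/-- **Weighing matrices** `W(N, w)` of order `N ≡ 2 mod 4`: `w` is a sum of two squares. -/
theorem weighing_two {N w : ℕ} (hw : 0 < w) (hN : N % 4 = 2) (W : Matrix (Fin N) (Fin N) ℤ)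
    (hW : W.transpose * W = (w : ℤ) • (1 : Matrix (Fin N) (Fin N) ℤ)) :
    ∃ a b : ℕ, w = a ^ 2 + b ^ 2 :=
  ((exists_transpose_mul_iff hw N).mp ⟨W, hW⟩).2 hN

/-- **Conference matrices** of order `N ≡ 2 mod 4` exist only if `N - 1` is a sum of two squares. -/
theorem conference {N : ℕ} (hN : N % 4 = 2) (C : Matrix (Fin N) (Fin N) ℤ)
    (hC : C.transpose * C = ((N - 1 : ℕ) : ℤ) • (1 : Matrix (Fin N) (Fin N) ℤ)) :
    ∃ a b : ℕ, N - 1 = a ^ 2 + b ^ 2 :=
  weighing_two (by omega) hN C hC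

/-- There is no conference matrix of order `22`. -/
theorem not_conference_22 (C : Matrix (Fin 22) (Fin 22) ℤ) :
    C.transpose * C ≠ (21 : ℤ) • (1 : Matrix (Fin 22) (Fin 22) ℤ) := by
  intro h
  obtain ⟨a, b, hab⟩ := conference (N := 22) (by norm_num) C (by simpa using h)
  have h1 : ∀ a ≤ 4, ∀ b ≤ 4, a ^ 2 + b ^ 2 ≠ 21 := by decide
  have h2 : a ≤ 4 := by nlinarith
  have h3 : b ≤ 4 := by nlinarith
  exact h1 a h2 b h3 (by omega)

end Fermat.Agent.Cor.BR
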